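import Mathlib

/-!
# IG-D1, abstract field theory: an element on which all embeddings agree is rational
-/

set_option autoImplicit false

open Polynomial

namespace Fermat.Agent.H88

/-- Let `E / F` be algebraic in characteristic zero and `Ω` algebraically closed.  If all
`F`-embeddings `E → Ω` agree on `x`, then `x` lies in `F`. -/
theorem mem_range_of_forall_algHom_eq {F E Ω : Type*} [Field F] [Field E] [Field Ω]
    [Algebra F E] [Algebra F Ω] [CharZero F] [IsAlgClosed Ω] [Algebra.IsAlgebraic F E]
    (x : E) (h : ∀ φ ψ : E →ₐ[F] Ω, φ x = ψ x) : x ∈ (algebraMap F E).range := by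
  have hint : IsIntegral F x := (Algebra.IsAlgebraic.isAlgebraic x).isIntegral
  have hirr := minpoly.irreducible hint
  have hsep : (minpoly F x).Separable := hirr.separable
  have hsplit : ∀ s : E, IsIntegral F s ∧ ((minpoly F s).map (algebraMap F Ω)).Splits :=
    fun s => ⟨(Algebra.IsAlgebraic.isAlgebraic s).isIntegral, IsAlgClosed.splits _⟩
  have hcard := Polynomial.card_rootSet_eq_natDegree (K := Ω) hsep (IsAlgClosed.splits _)
  have hsub : ∀ y ∈ (minpoly F x).rootSet Ω, ∀ z ∈ (minpoly F x).rootSet Ω, y = z := by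
    intro y hy z hz
    rw [Polynomial.mem_rootSet] at hy hz
    obtain ⟨φ, hφ⟩ := IntermediateField.exists_algHom_of_splits_of_aeval hsplit hy.2
    obtain ⟨ψ, hψ⟩ := IntermediateField.exists_algHom_of_splits_of_aeval hsplit hz.2
    rw [← hφ, ← hψ]
    exact h φ ψ
  have hle : (minpoly F x).natDegree ≤ 1 := by
    rw [← hcard]
    haveI : Subsingleton ((minpoly F x).rootSet Ω) :=
      ⟨fun a b => Subtype.ext (hsub a a.2 b b.2)⟩
    exact Fintype.card_le_one_iff_subsingleton.mpr inferInstance
  have hpos : 0 < (minpoly F x).natDegree := minpoly.natDegree_pos hint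
  exact minpoly.natDegree_eq_one_iff.mp (le_antisymm hle hpos)

end Fermat.Agent.H88
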