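import Fermat.Agent.H88.Basic
import Mathlib.Analysis.SpecialFunctions.Complex.Circle
import Mathlib.RingTheory.RootsOfUnity.Complex

/-!
# IG-D1, part 2: the modular relations in `ℚ((q))` from Hecke data over `ℂ`
-/

set_option autoImplicit false

noncomputable section

open ModularCurve Fermat.Agent.H27 Polynomial HahnSeries

namespace Fermat.Agent.H88

section General

variable {k : Type*} [CommRing k] {p : ℕ} [NeZero p] {ζ : kˣ}

theorem ev2_base_j (D : HeckeDataOver p k ζ) : ev2 D.Φ (baseS k p) (jqModC k) = 0 := by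
  rw [ev2_eq_evalAt, D.Φ_factor, Polynomial.eval_mul, Polynomial.eval_prod]
  have h0 : (0 : ℕ) ∈ Finset.range p := Finset.mem_range.mpr (Nat.pos_of_ne_zero (NeZero.ne p))
  rw [Finset.prod_eq_zero h0, mul_zero]
  simp only [Polynomial.eval_sub, Polynomial.eval_X, Polynomial.eval_C, pow_zero, rootFin,
    twist_one, sub_self]

theorem ev2_base_rootInf (D : HeckeDataOver p k ζ) : ev2 D.Φ (baseS k p) (rootInf k p) = 0 := by
  rw [ev2_eq_evalAt, D.Φ_factor, Polynomial.eval_mul]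
  simp only [Polynomial.eval_sub, Polynomial.eval_X, Polynomial.eval_C, sub_self, zero_mul]

theorem ev2_j_base (D : HeckeDataOver p k ζ) : ev2 D.Φ (jqModC k) (baseS k p) = 0 := by
  have h := ev2_base_rootInf D
  have h2 : ev2 D.Φ (baseS k p) (rootInf k p) = qExpand k p (ev2 D.Φ (jqModC k) (baseS k p)) := by
    rw [map_ev2]
    rfl
  rw [h2] at h
  exact qExpand_injective p (h.trans (map_zero _).symm)

/-- `Φ_p(j(t^n), j(t^(n p))) = 0` -/
theorem rel_up (D : HeckeDataOver p k ζ) (n : ℕ) (hn : n ≠ 0) :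
    ev2 D.Φ (jd k n) (jd k (n * p)) = 0 := by
  haveI : NeZero n := ⟨hn⟩
  have h := congrArg (qExpand k n) (ev2_j_base D)
  rw [map_ev2, map_zero] at h
  have h1 : qExpand k n (jqModC k) = jd k n := (jd_eq k n).symm
  have h2 : qExpand k n (baseS k p) = jd k (n * p) := by
    rw [baseS, ← jd_eq k p, qExpand_jd n p (NeZero.ne p)]
  rwa [h1, h2] at h

/-- `Φ_p(j(t^(n p)), j(t^n)) = 0` -/
theorem rel_down (D : HeckeDataOver p k ζ) (n : ℕ) (hn : n ≠ 0) :
    ev2 D.Φ (jd k (n * p)) (jd k n) = 0 := by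
  haveI : NeZero n := ⟨hn⟩
  have h := congrArg (qExpand k n) (ev2_base_j D)
  rw [map_ev2, map_zero] at h
  have h1 : qExpand k n (jqModC k) = jd k n := (jd_eq k n).symm
  have h2 : qExpand k n (baseS k p) = jd k (n * p) := by
    rw [baseS, ← jd_eq k p, qExpand_jd n p (NeZero.ne p)]
  rwa [h1, h2] at h

end General

section Complex

/-- the standard primitive `p`-th root of unity in `ℂ` as a unit -/
def zetaC (p : ℕ) : ℂˣ :=
  Units.mk0 (Complex.exp (2 * Real.pi * Complex.I / p)) (Complex.exp_ne_zero _)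

theorem zetaC_prim (p : ℕ) (hp : p ≠ 0) : IsPrimitiveRoot ((zetaC p : ℂˣ) : ℂ) p :=
  Complex.isPrimitiveRoot_exp p hp

/-- a choice of Hecke data at `p` -/
def dataC (hM : HasHeckeData ℂ) (p : ℕ) [NeZero p] (hp : p.Prime) :
    HeckeDataOver p ℂ (zetaC p) :=
  Classical.choice (hM p hp (zetaC p) (zetaC_prim p hp.ne_zero))

/-- the chosen modular polynomial at `p` (junk `0` if `p` is not prime) -/
def PhiC (hM : HasHeckeData ℂ) (p : ℕ) : Polynomial (Polynomial ℤ) :=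
  if hp : p.Prime then (haveI : NeZero p := ⟨hp.ne_zero⟩; (dataC hM p hp).Φ) else 0

theorem PhiC_eq (hM : HasHeckeData ℂ) (p : ℕ) [NeZero p] (hp : p.Prime) :
    PhiC hM p = (dataC hM p hp).Φ := by
  unfold PhiC
  rw [dif_pos hp]

theorem PhiC_monic (hM : HasHeckeData ℂ) {p : ℕ} (hp : p.Prime) : (PhiC hM p).Monic := by
  haveI : NeZero p := ⟨hp.ne_zero⟩
  rw [PhiC_eq hM p hp]
  exact (dataC hM p hp).Φ_monic

theorem PhiC_natDegree (hM : HasHeckeData ℂ) {p : ℕ} (hp : p.Prime) :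
    (PhiC hM p).natDegree = p + 1 := by
  haveI : NeZero p := ⟨hp.ne_zero⟩
  rw [PhiC_eq hM p hp]
  exact (dataC hM p hp).Φ_natDegree

theorem PhiC_factor (hM : HasHeckeData ℂ) (p : ℕ) [NeZero p] (hp : p.Prime) :
    (PhiC hM p).map (evalAt (baseS ℂ p)) =
      (Polynomial.X - Polynomial.C (rootInf ℂ p)) *
        ∏ b ∈ Finset.range p, (Polynomial.X - Polynomial.C (rootFin ((zetaC p) ^ b))) := by
  rw [PhiC_eq hM p hp]
  exact (dataC hM p hp).Φ_factor

theorem coeffMapQC_injective : Function.Injective (coeffMap (algebraMap ℚ ℂ)) :=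
  coeffMap_injective _ (algebraMap ℚ ℂ).injective

/-- `Φ_p(j(q^n), j(q^(n p))) = 0` in `ℚ((q))` -/
theorem rel_up_rat (hM : HasHeckeData ℂ) {p : ℕ} (hp : p.Prime) (n : ℕ) (hn : n ≠ 0) :
    ev2 (PhiC hM p) (jd ℚ n) (jd ℚ (n * p)) = 0 := by
  haveI : NeZero p := ⟨hp.ne_zero⟩
  apply coeffMapQC_injective
  rw [map_ev2, map_zero, coeffMap_jd, coeffMap_jd, PhiC_eq hM p hp]
  exact rel_up _ n hn

/-- `Φ_p(j(q^(n p)), j(q^n)) = 0` in `ℚ((q))` -/
theorem rel_down_rat (hM : HasHeckeData ℂ) {p : ℕ} (hp : p.Prime) (n : ℕ) (hn : n ≠ 0) :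
    ev2 (PhiC hM p) (jd ℚ (n * p)) (jd ℚ n) = 0 := by
  haveI : NeZero p := ⟨hp.ne_zero⟩
  apply coeffMapQC_injective
  rw [map_ev2, map_zero, coeffMap_jd, coeffMap_jd, PhiC_eq hM p hp]
  exact rel_down _ n hn

end Complex

end Fermat.Agent.H88
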