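import Fermat.Agent.H88.Basic
import Mathlib.Data.Nat.Factorization.Induction

/-!
# IG-D1, part 1: the tracking lemma

Let `Ω` be a field containing `k((t))` and let `v : ℕ → Ω` be a family with
`Φ_p (v d, v (d p)) = 0` whenever `d p ∣ N`, `v 1 = j(t^N)` and `v N = j(t^(N N))`.
Then `v d = j(t^(N d))` for every `d ∣ N`.
-/

set_option autoImplicit false

noncomputable section

open ModularCurve Fermat.Agent.H27 Polynomial HahnSeries

namespace Fermat.Agent.H88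

section Step

variable {k : Type*} [Field k] {Ω : Type*} [Field Ω] [Algebra (LaurentSeries k) Ω]

/-- the roots of `Φ_p(j(ξ'^p t^(e' p)), Y)` in any field over `k((t))`. -/
theorem step_roots {p : ℕ} [NeZero p] {ζ : kˣ} (Φ : Polynomial (Polynomial ℤ))
    (hΦ : Φ.map (evalAt (baseS k p)) =
      (Polynomial.X - Polynomial.C (rootInf k p)) *
        ∏ b ∈ Finset.range p, (Polynomial.X - Polynomial.C (rootFin (ζ ^ b))))
    (ξ' : kˣ) (e' : ℕ) (he' : e' ≠ 0) (y : Ω)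
    (hy : ev2 Φ (algebraMap (LaurentSeries k) Ω (jj k (ξ' ^ p) (e' * p))) y = 0) :
    y = algebraMap (LaurentSeries k) Ω (jj k (ξ' ^ (p * p)) (e' * p * p)) ∨
      ∃ b < p, y = algebraMap (LaurentSeries k) Ω (jj k (ξ' * ζ ^ b) e') := by
  haveI : NeZero e' := ⟨he'⟩
  haveI : NeZero (e' * p) := ⟨mul_ne_zero he' (NeZero.ne p)⟩
  haveI : NeZero (e' * p * p) := ⟨mul_ne_zero (mul_ne_zero he' (NeZero.ne p)) (NeZero.ne p)⟩
  -- push the factorisation through `σ = subst ξ' e'` and then into `Ω`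
  have h1 : ev1 Φ (subst ξ' e' (baseS k p)) =
      (Polynomial.X - Polynomial.C (subst ξ' e' (rootInf k p))) *
        ∏ b ∈ Finset.range p, (Polynomial.X - Polynomial.C (subst ξ' e' (rootFin (ζ ^ b)))) := by
    have := congrArg (Polynomial.map (subst ξ' e')) hΦ
    rw [Polynomial.map_mul, Polynomial.map_prod] at this
    simp only [Polynomial.map_sub, Polynomial.map_X, Polynomial.map_C] at this
    rw [← this]
    exact (map_ev1 (subst ξ' e') Φ (baseS k p)).symm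
  have hbase : subst ξ' e' (baseS k p) = jj k (ξ' ^ p) (e' * p) := by
    rw [baseS, subst_qExpand, jj_eq]
  have hinf : subst ξ' e' (rootInf k p) = jj k (ξ' ^ (p * p)) (e' * p * p) := by
    rw [rootInf, subst_qExpand, subst_qExpand, jj_eq, pow_mul]
  have hfin : ∀ b, subst ξ' e' (rootFin (ζ ^ b)) = jj k (ξ' * ζ ^ b) e' := by
    intro b
    rw [rootFin, subst_twist, jj_eq]
  rw [hbase, hinf] at h1
  simp only [hfin] at h1
  have h2 := congrArg (Polynomial.map (algebraMap (LaurentSeries k) Ω)) h1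
  rw [map_ev1, Polynomial.map_mul, Polynomial.map_prod] at h2
  simp only [Polynomial.map_sub, Polynomial.map_X, Polynomial.map_C] at h2
  have h3 := congrArg (Polynomial.eval y) h2
  rw [ev1_eval, hy, Polynomial.eval_mul, Polynomial.eval_prod] at h3
  simp only [Polynomial.eval_sub, Polynomial.eval_X, Polynomial.eval_C] at h3
  rcases mul_eq_zero.mp h3.symm with h | h
  · left
    exact sub_eq_zero.mp h
  · right
    obtain ⟨b, hb, hb0⟩ := Finset.prod_eq_zero_iff.mp h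
    exact ⟨b, Finset.mem_range.mp hb, sub_eq_zero.mp hb0⟩

end Step

section Track

universe u v

variable {k : Type u} [Field k] {Ω : Type v} [Field Ω] [Algebra (LaurentSeries k) Ω]

/-- hypotheses of the tracking lemma, bundled -/
structure TrackData (k : Type u) [Field k] (Ω : Type v) [Field Ω] [Algebra (LaurentSeries k) Ω]
    (N : ℕ) : Type (max u v) where
  Φ : ℕ → Polynomial (Polynomial ℤ)
  ζ : ℕ → kˣ
  v : ℕ → Ω
  hroot : ∀ p : ℕ, p.Prime → p ∣ N → ∀ ξ : kˣ, ∃ ξ' : kˣ, ξ' ^ p = ξ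
  hΦ : ∀ (p : ℕ) [NeZero p], p.Prime → p ∣ N →
    (Φ p).map (evalAt (baseS k p)) =
      (Polynomial.X - Polynomial.C (rootInf k p)) *
        ∏ b ∈ Finset.range p, (Polynomial.X - Polynomial.C (rootFin ((ζ p) ^ b)))
  hv1 : v 1 = algebraMap (LaurentSeries k) Ω (jj k 1 N)
  hvN : v N = algebraMap (LaurentSeries k) Ω (jj k 1 (N * N))
  hrel : ∀ p : ℕ, p.Prime → ∀ d : ℕ, d * p ∣ N → ev2 (Φ p) (v d) (v (d * p)) = 0

variable {N : ℕ}

theorem TrackData.step (T : TrackData k Ω N) (hN : N ≠ 0) {p d : ℕ} (hp : p.Prime)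
    (hdp : d * p ∣ N) {ξ : kˣ} {e : ℕ} (he : e ≠ 0)
    (hv : T.v d = algebraMap (LaurentSeries k) Ω (jj k ξ e)) (hdiv : (N / d) ∣ e) :
    ∃ (ξ₁ : kˣ) (e₁ : ℕ), e₁ ≠ 0 ∧ T.v (d * p) = algebraMap (LaurentSeries k) Ω (jj k ξ₁ e₁) ∧
      (N / (d * p)) ∣ e₁ ∧ ((e₁ = e * p ∧ ξ₁ = ξ ^ p) ∨ e₁ * p = e) := by
  haveI : NeZero p := ⟨hp.ne_zero⟩
  have hpN : p ∣ N := (Dvd.intro_left d rfl).trans hdp
  have hd0 : d ≠ 0 := by
    rintro rfl
    rw [zero_mul, zero_dvd_iff] at hdp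
    exact hN hdp
  have hdN : d ∣ N := (Dvd.intro p rfl).trans hdp
  -- `N / d = (N / (d * p)) * p`
  have hquot : N / d = N / (d * p) * p := by
    obtain ⟨c, hc⟩ := hdp
    rw [hc, Nat.mul_div_cancel_left c (Nat.mul_pos (Nat.pos_of_ne_zero hd0) hp.pos),
      mul_assoc, Nat.mul_div_cancel_left (p * c) (Nat.pos_of_ne_zero hd0), mul_comm]
  have hpe : p ∣ e := (Dvd.intro_left _ hquot.symm).trans hdiv
  obtain ⟨e', he'⟩ := hpe
  have he'0 : e' ≠ 0 := by
    rintro rfl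
    rw [mul_zero] at he'
    exact he he'
  obtain ⟨ξ', hξ'⟩ := T.hroot p hp hpN ξ
  have he'' : e = e' * p := by rw [he', mul_comm]
  have hy := T.hrel p hp d hdp
  rw [hv, he'', ← hξ'] at hy
  rcases step_roots (T.Φ p) (T.hΦ p hp hpN) ξ' e' he'0 (T.v (d * p)) hy with h | ⟨b, -, h⟩
  · refine ⟨ξ' ^ (p * p), e' * p * p, mul_ne_zero (mul_ne_zero he'0 hp.ne_zero) hp.ne_zero, h,
      ?_, Or.inl ⟨by rw [he''], by rw [← hξ', pow_mul]⟩⟩
    have : N / (d * p) ∣ e := (Dvd.intro _ hquot.symm).trans hdiv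
    rw [← he'']
    exact this.mul_right p
  · refine ⟨ξ' * T.ζ p ^ b, e', he'0, h, ?_, Or.inr he''.symm⟩
    rw [hquot, he''] at hdiv
    exact Nat.dvd_of_mul_dvd_mul_right hp.pos hdiv

/-- absolute invariant -/
def TrackData.Inv (T : TrackData k Ω N) (d : ℕ) : Prop :=
  ∃ (ξ : kˣ) (e : ℕ), e ≠ 0 ∧ T.v d = algebraMap (LaurentSeries k) Ω (jj k ξ e) ∧
    (N / d) ∣ e ∧ e ∣ N * d ∧ (e = N * d → ξ = 1)

theorem TrackData.inv_one (T : TrackData k Ω N) (hN : N ≠ 0) : T.Inv 1 :=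
  ⟨1, N, hN, T.hv1, by simp, by simp, fun _ => rfl⟩

theorem TrackData.inv_step (T : TrackData k Ω N) (hN : N ≠ 0) {p d : ℕ} (hp : p.Prime)
    (hdp : d * p ∣ N) (h : T.Inv d) : T.Inv (d * p) := by
  obtain ⟨ξ, e, he, hv, hdiv, hdiv2, hone⟩ := h
  have hd0 : d ≠ 0 := by
    rintro rfl
    rw [zero_mul, zero_dvd_iff] at hdp
    exact hN hdp
  obtain ⟨ξ₁, e₁, he₁, hv₁, hdiv₁, h | h⟩ := T.step hN hp hdp he hv hdiv
  · obtain ⟨rfl, rfl⟩ := h
    refine ⟨ξ ^ p, e * p, he₁, hv₁, hdiv₁, ?_, ?_⟩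
    · rw [← mul_assoc]
      exact Nat.mul_dvd_mul_right hdiv2 p
    · intro heq
      rw [← mul_assoc] at heq
      rw [hone (Nat.eq_of_mul_eq_mul_right hp.pos heq), one_pow]
  · refine ⟨ξ₁, e₁, he₁, hv₁, hdiv₁, ?_, ?_⟩
    · have : e₁ ∣ e := Dvd.intro _ h
      exact (this.trans hdiv2).trans (Nat.mul_dvd_mul_left N (Dvd.intro p rfl))
    · intro heq
      exfalso
      have hle : e ≤ N * d := Nat.le_of_dvd (Nat.mul_pos (Nat.pos_of_ne_zero hN)
        (Nat.pos_of_ne_zero hd0)) hdiv2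
      have h2 : 2 ≤ p := hp.two_le
      have hpos : 0 < N * d := Nat.mul_pos (Nat.pos_of_ne_zero hN) (Nat.pos_of_ne_zero hd0)
      rw [heq] at h
      nlinarith

theorem TrackData.inv_all (T : TrackData k Ω N) (hN : N ≠ 0) : ∀ d : ℕ, d ∣ N → T.Inv d := by
  intro d
  induction d using induction_on_primes with
  | zero =>
    intro h
    exact absurd (zero_dvd_iff.mp h) hN
  | one => intro _; exact T.inv_one hN
  | prime_mul p a hp ih =>
    intro h
    have ha : a ∣ N := (Dvd.intro_left p rfl).trans h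
    have := T.inv_step hN hp (by rwa [mul_comm]) (ih ha)
    rwa [mul_comm] at this

/-- relative invariant -/
theorem TrackData.rel (T : TrackData k Ω N) (hN : N ≠ 0) {d₀ : ℕ} {ξ₀ : kˣ} {e₀ : ℕ}
    (he₀ : e₀ ≠ 0) (hv₀ : T.v d₀ = algebraMap (LaurentSeries k) Ω (jj k ξ₀ e₀))
    (hdiv₀ : (N / d₀) ∣ e₀) :
    ∀ m : ℕ, d₀ * m ∣ N →
      ∃ (ξ : kˣ) (e : ℕ), e ≠ 0 ∧ T.v (d₀ * m) = algebraMap (LaurentSeries k) Ω (jj k ξ e) ∧
        (N / (d₀ * m)) ∣ e ∧ e ≤ e₀ * m := by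
  intro m
  induction m using induction_on_primes with
  | zero =>
    intro h
    rw [mul_zero] at h
    exact absurd (zero_dvd_iff.mp h) hN
  | one =>
    intro _
    refine ⟨ξ₀, e₀, he₀, by rwa [mul_one], by rwa [mul_one], by rw [mul_one]⟩
  | prime_mul p a hp ih =>
    intro h
    have ha : d₀ * a ∣ N := (Dvd.intro p (by ring)).trans h
    obtain ⟨ξ, e, he, hv, hdiv, hle⟩ := ih ha
    have hdp : d₀ * a * p ∣ N := by
      have : d₀ * a * p = d₀ * (p * a) := by ring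
      rwa [this]
    obtain ⟨ξ₁, e₁, he₁, hv₁, hdiv₁, h' | h'⟩ := T.step hN hp hdp he hv hdiv
    · obtain ⟨rfl, rfl⟩ := h'
      have e1 : d₀ * a * p = d₀ * (p * a) := by ring
      rw [e1] at hv₁ hdiv₁
      refine ⟨ξ ^ p, e * p, he₁, hv₁, hdiv₁, ?_⟩
      calc e * p ≤ e₀ * a * p := Nat.mul_le_mul_right p hle
        _ = e₀ * (p * a) := by ring
    · have e1 : d₀ * a * p = d₀ * (p * a) := by ring
      rw [e1] at hv₁ hdiv₁
      refine ⟨ξ₁, e₁, he₁, hv₁, hdiv₁, ?_⟩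
      have h2 : 1 ≤ p := hp.one_lt.le
      calc e₁ ≤ e₁ * p := Nat.le_mul_of_pos_right _ hp.pos
        _ = e := h'
        _ ≤ e₀ * a := hle
        _ ≤ e₀ * (p * a) := by
            apply Nat.mul_le_mul_left
            exact Nat.le_mul_of_pos_left _ hp.pos

/-- **Tracking lemma.** -/
theorem TrackData.eq_jd (T : TrackData k Ω N) (hN : N ≠ 0) (d : ℕ) (hd : d ∣ N) :
    T.v d = algebraMap (LaurentSeries k) Ω (jd k (N * d)) := by
  have hd0 : d ≠ 0 := by
    rintro rfl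
    exact hN (zero_dvd_iff.mp hd)
  obtain ⟨ξ, e, he, hv, hdiv, hdiv2, hone⟩ := T.inv_all hN d hd
  obtain ⟨ξN, eN, heN, hvN, -, hle⟩ := T.rel hN he hv hdiv (N / d)
    (by rw [Nat.mul_div_cancel' hd])
  rw [Nat.mul_div_cancel' hd, T.hvN] at hvN
  have hinj : Function.Injective (algebraMap (LaurentSeries k) Ω) :=
    (algebraMap (LaurentSeries k) Ω).injective
  have hEq := jj_exp_eq (mul_ne_zero hN hN) heN (hinj hvN)
  -- `N * N ≤ e * (N / d)` and `e ≤ N * d`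
  have hle2 : e ≤ N * d := Nat.le_of_dvd (Nat.mul_pos (Nat.pos_of_ne_zero hN)
    (Nat.pos_of_ne_zero hd0)) hdiv2
  obtain ⟨c, hc⟩ := hd
  have hc0 : c ≠ 0 := by
    rintro rfl
    rw [mul_zero] at hc
    exact hN hc
  have hq : N / d = c := by
    rw [hc, Nat.mul_div_cancel_left c (Nat.pos_of_ne_zero hd0)]
  rw [hq, ← hEq] at hle
  have heq : e = N * d := by
    apply le_antisymm hle2
    -- `N * N ≤ e * c`, `N = d * c`
    have h1 : N * d * c ≤ e * c := by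
      calc N * d * c = N * (d * c) := by ring
        _ = N * N := by rw [← hc]
        _ ≤ e * c := hle
    exact Nat.le_of_mul_le_mul_right h1 (Nat.pos_of_ne_zero hc0)
  rw [hv, hone heq, heq, jj_one_left k _ (mul_ne_zero hN hd0)]

end Track

end Fermat.Agent.H88
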