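import Mathlib
import Fermat.Agent.H88.Tracking
import Fermat.Agent.H88.Relations
import Fermat.Agent.H88.Galois

/-!
# IG-D1, part (B): function field generation

`ℚ(j(q^d) : d ∣ N) = ℚ(j(q), j(q^N))` inside `ℚ((q))`, from Hecke data over `ℂ`.
-/

set_option autoImplicit false
set_option linter.style.haveILetI false

noncomputable section

open ModularCurve Fermat.Agent.H27 Polynomial HahnSeries IntermediateField

namespace Fermat.Agent.H88

section Integral

/-- all `j(q^d)` are integral over any intermediate field containing `j`. -/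
theorem isIntegral_jd (hM : HasHeckeData ℂ) (G : IntermediateField ℚ (LaurentSeries ℚ))
    (hj : jq ∈ G) : ∀ d : ℕ, d ≠ 0 → IsIntegral G (jd ℚ d) := by
  intro d
  induction d using induction_on_primes with
  | zero => intro h; exact absurd rfl h
  | one =>
    intro _
    rw [jd_one]
    exact isIntegral_algebraMap (x := (⟨jq, hj⟩ : G))
  | prime_mul p a hp ih =>
    intro hpa
    have ha : a ≠ 0 := fun h => hpa (by rw [h, mul_zero])
    have hia := ih ha
    let A := integralClosure G (LaurentSeries ℚ)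
    let xa : A := ⟨jd ℚ a, hia⟩
    have hmonic : (ev1 (PhiC hM p) xa).Monic := ev1_monic _ (PhiC_monic hM hp) xa
    have hroot : Polynomial.eval₂ (algebraMap A (LaurentSeries ℚ)) (jd ℚ (p * a))
        (ev1 (PhiC hM p) xa) = 0 := by
      rw [← Polynomial.eval_map, map_ev1, ev1_eval, mul_comm p a]
      exact rel_up_rat hM hp a ha
    have hint : IsIntegral A (jd ℚ (p * a)) := ⟨_, hmonic, hroot⟩
    exact isIntegral_trans (R := G) (A := A) _ hint

end Integral

section Embedding

variable (N : ℕ) [NeZero N]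

/-- the embedding `ℚ((q)) → ℂ((t))`, `q ↦ t^N` -/
def iotaN : LaurentSeries ℚ →+* LaurentSeries ℂ :=
  (qExpand ℂ N).comp (coeffMap (algebraMap ℚ ℂ))

theorem iotaN_jd (d : ℕ) (hd : d ≠ 0) : iotaN N (jd ℚ d) = jd ℂ (N * d) := by
  rw [iotaN, RingHom.comp_apply, coeffMap_jd, qExpand_jd N d hd]

/-- the algebraically closed field `Ω ⊇ ℂ((t))` -/
abbrev OmegaC : Type := AlgebraicClosure (LaurentSeries ℂ)

/-- the embedding `ℚ((q)) → Ω` -/
def iotaOmega : LaurentSeries ℚ →+* OmegaC :=
  (algebraMap (LaurentSeries ℂ) OmegaC).comp (iotaN N)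

theorem iotaOmega_jd (d : ℕ) (hd : d ≠ 0) :
    iotaOmega N (jd ℚ d) = algebraMap (LaurentSeries ℂ) OmegaC (jd ℂ (N * d)) := by
  rw [iotaOmega, RingHom.comp_apply, iotaN_jd N d hd]

/-- the field `ℚ(j(q^d) : d ∣ N)` as an extension of `ℚ(j, j_N)` -/
abbrev fullOver : IntermediateField (modularFunctionField N) (LaurentSeries ℚ) :=
  IntermediateField.adjoin (modularFunctionField N) (divisorExpansions N)

theorem jd_mem_fullOver (d : ℕ) (hd : d ∣ N) : jd ℚ d ∈ fullOver N := by
  have hd0 : d ≠ 0 := fun h => NeZero.ne N (zero_dvd_iff.mp (h ▸ hd))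
  haveI : NeZero d := ⟨hd0⟩
  rw [jd_rat]
  exact IntermediateField.subset_adjoin _ _ (mem_divisorExpansions N hd)

/-- `j(q^d)` as an element of `fullOver N` -/
def jdE (d : ℕ) (hd : d ∣ N) : fullOver N := ⟨jd ℚ d, jd_mem_fullOver N d hd⟩

theorem exists_unit_root (p : ℕ) (hp : p.Prime) (ξ : ℂˣ) : ∃ ξ' : ℂˣ, ξ' ^ p = ξ := by
  obtain ⟨z, hz⟩ := IsAlgClosed.exists_pow_nat_eq (ξ : ℂ) hp.pos
  have hz0 : z ≠ 0 := by
    rintro rfl
    rw [zero_pow hp.ne_zero] at hz
    exact ξ.ne_zero hz.symm
  refine ⟨Units.mk0 z hz0, Units.ext ?_⟩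
  rw [Units.val_pow_eq_pow_val, Units.val_mk0, hz]

variable [Algebra (modularFunctionField N) OmegaC]

/-- every embedding of `ℚ(j(q^d) : d ∣ N)` over `ℚ(j, j_N)` into `Ω` is the standard one. -/
theorem embedding_eq (hM : HasHeckeData ℂ)
    (halg : algebraMap (modularFunctionField N) OmegaC =
      (iotaOmega N).comp (algebraMap (modularFunctionField N) (LaurentSeries ℚ)))
    (φ : fullOver N →ₐ[modularFunctionField N] OmegaC) (d : ℕ) (hd : d ∣ N) :
    φ (jdE N d hd) = iotaOmega N (jd ℚ d) := by
  have hN : N ≠ 0 := NeZero.ne N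
  have hd0 : d ≠ 0 := fun h => hN (zero_dvd_iff.mp (h ▸ hd))
  -- `φ` is standard on the base field
  have hbase : ∀ (x : fullOver N), (x : LaurentSeries ℚ) ∈ modularFunctionField N →
      φ x = iotaOmega N (x : LaurentSeries ℚ) := by
    intro x hx
    have hx' : x = algebraMap (modularFunctionField N) (fullOver N) ⟨(x : LaurentSeries ℚ), hx⟩ :=
      Subtype.ext rfl
    rw [hx', φ.commutes, halg]
    rfl
  let T : TrackData ℂ OmegaC N :=
    { Φ := PhiC hM
      ζ := zetaC
      v := fun d => if h : d ∣ N then φ (jdE N d h) else 0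
      hroot := fun p hp _ ξ => exists_unit_root p hp ξ
      hΦ := fun p _ hp _ => PhiC_factor hM p hp
      hv1 := by
        rw [dif_pos (one_dvd N), hbase _ (by
          show jd ℚ 1 ∈ modularFunctionField N
          rw [jd_one]
          exact jq_mem N), jj_one_left ℂ N hN]
        show iotaOmega N (jd ℚ 1) = _
        rw [iotaOmega_jd N 1 one_ne_zero, mul_one]
      hvN := by
        rw [dif_pos (dvd_refl N), hbase _ (by
          show jd ℚ N ∈ modularFunctionField N
          rw [jd_rat]
          exact jqN_mem N), jj_one_left ℂ (N * N) (mul_ne_zero hN hN)]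
        show iotaOmega N (jd ℚ N) = _
        rw [iotaOmega_jd N N hN]
      hrel := by
        intro p hp d' hd'
        have h1 : d' ∣ N := (Dvd.intro p rfl).trans hd'
        have hd'0 : d' ≠ 0 := fun h => hN (zero_dvd_iff.mp (h ▸ h1))
        rw [dif_pos h1, dif_pos hd']
        have h2 : ev2 (PhiC hM p) (jdE N d' h1) (jdE N (d' * p) hd') = 0 := by
          apply (algebraMap (fullOver N) (LaurentSeries ℚ)).injective
          rw [map_ev2, map_zero]
          exact rel_up_rat hM hp d' hd'0
        have h3 := map_ev2 (φ : fullOver N →+* OmegaC) (PhiC hM p) (jdE N d' h1)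
          (jdE N (d' * p) hd')
        rw [h2, map_zero] at h3
        exact h3.symm }
  have h := T.eq_jd hN d hd
  have hv : T.v d = φ (jdE N d hd) := dif_pos hd
  rw [hv] at h
  rw [h, iotaOmega_jd N d hd0]

end Embedding

section Main

/-- **Function field generation** (IG-D1, part (B)): every `j(q^d)`, `d ∣ N`, lies in
`ℚ(j(q), j(q^N))`. -/
theorem functionFieldGeneration (hM : HasHeckeData ℂ) (N : ℕ) [NeZero N] :
    FunctionFieldGeneration N := by
  intro d hd hne
  haveI := hne
  letI algBΩ : Algebra (modularFunctionField N) OmegaC :=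
    ((iotaOmega N).comp (algebraMap (modularFunctionField N) (LaurentSeries ℚ))).toAlgebra
  have halg : algebraMap (modularFunctionField N) OmegaC =
      (iotaOmega N).comp (algebraMap (modularFunctionField N) (LaurentSeries ℚ)) := rfl
  haveI halgebraic : Algebra.IsAlgebraic (modularFunctionField N) (fullOver N) := by
    apply IntermediateField.isAlgebraic_adjoin
    rintro x ⟨d', hd'ne, -, rfl⟩
    haveI := hd'ne
    rw [← jd_rat]
    exact isIntegral_jd hM (modularFunctionField N) (jq_mem N) d' (NeZero.ne d')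
  have hmem := mem_range_of_forall_algHom_eq (F := modularFunctionField N) (E := fullOver N)
    (Ω := OmegaC) (jdE N d hd) (fun φ ψ => by
      rw [embedding_eq N hM halg φ d hd, embedding_eq N hM halg ψ d hd])
  obtain ⟨b, hb⟩ := hmem
  have hb' : (b : LaurentSeries ℚ) = jd ℚ d := congrArg Subtype.val hb
  have hfin : jd ℚ d ∈ modularFunctionField N := hb' ▸ b.2
  rw [jd_rat d] at hfin
  exact hfin

end Main

end Fermat.Agent.H88
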