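import Mathlib
import Fermat.Prelude.Def_ModularCurve_IgusaScheme
import Fermat.Prelude.Def_ModularCurve_X0ModL
import Fermat.Agent.H27.Igusa.Defs
import Fermat.Agent.H32.IgusaChain
import Fermat.Agent.H88.Generation

/-!
# IG-D1: the characteristic zero upper bound `[ℚ(j(q^d) : d ∣ N) : ℚ(j)] ≤ ψ(N)`

Combines function field generation (`Fermat.Agent.H88.functionFieldGeneration`) with the chain
degree bound (`Fermat.Agent.H32.relrank_full_le_dedekindPsi_of_generation`).
-/

set_option autoImplicit false

open ModularCurve ModularCurve.IgusaScheme Fermat.Agent.H27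

namespace Fermat.Agent.H88

theorem relrank_full_le_dedekindPsi (hM : HasHeckeData ℂ) (N : ℕ) [NeZero N] :
    IntermediateField.relrank (IntermediateField.adjoin ℚ {jq}) (modularFunctionFieldFull N) ≤ (dedekindPsi N : Cardinal) :=
  Fermat.Agent.H32.relrank_full_le_dedekindPsi_of_generation hM N (functionFieldGeneration hM N)

end Fermat.Agent.H88
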