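import Mathlib
import Fermat.Agent.H76.ThaineInterfaces

/-!
# P-S14, C3-b2: total ramification of `K(ζ_ℓ)/K` at the primes over `ℓ`

`K = ℚ(ζ_p)`, `F = K(ζ_ℓ)`, `ℓ ≠ p`.  For a prime `Q` of `𝓞 F` over `ℓ`:
`e(Q | Q ∩ 𝓞 K) = ℓ - 1`, `ζ_ℓ - 1` is a uniformiser at `Q`, and `Gal(F/K)` acts trivially on
`𝓞 F / Q`.
-/

set_option autoImplicit false
set_option linter.style.haveILetI false

open scoped NumberField nonZeroDivisors
open Ideal

namespace Fermat.Agent.H88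

/-- the product of primitive roots of coprime orders is primitive -/
theorem isPrimitiveRoot_mul_of_coprime {M : Type*} [CommMonoid M] {a b : M} {m n : ℕ}
    (ha : IsPrimitiveRoot a m) (hb : IsPrimitiveRoot b n) (h : m.Coprime n) :
    IsPrimitiveRoot (a * b) (m * n) := by
  have h1 := ha.eq_orderOf
  have h2 := hb.eq_orderOf
  have h3 : orderOf (a * b) = m * n := by
    rw [h1, h2]
    exact (Commute.all a b).orderOf_mul_eq_mul_orderOf_of_coprime (h1 ▸ h2 ▸ h)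
  rw [← h3]
  exact IsPrimitiveRoot.orderOf _

variable (p ℓ : ℕ) [Fact p.Prime] [Fact ℓ.Prime] (K : Type) [Field K] [NumberField K]
    [IsCyclotomicExtension {p} ℚ K] (F : Type) [Field F] [NumberField F] [Algebra K F]
    [IsCyclotomicExtension {ℓ} K F]

include K in
/-- `F = ℚ(ζ_p)(ζ_ℓ)` is the `ℓ p`-th cyclotomic field. -/
theorem thaine_isCyclotomicExtension_mul (hℓp : ℓ ≠ p) : IsCyclotomicExtension {ℓ * p} ℚ F := by
  have hp : p.Prime := Fact.out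
  have hℓ : ℓ.Prime := Fact.out
  haveI : NeZero p := ⟨hp.ne_zero⟩
  haveI : NeZero ℓ := ⟨hℓ.ne_zero⟩
  haveI : NeZero (ℓ * p) := ⟨mul_ne_zero hℓ.ne_zero hp.ne_zero⟩
  haveI h1 : IsCyclotomicExtension ({p} ∪ {ℓ}) ℚ F :=
    IsCyclotomicExtension.trans {p} {ℓ} ℚ K F (algebraMap K F).injective
  have hζp : IsPrimitiveRoot (algebraMap K F (IsCyclotomicExtension.zeta p ℚ K)) p :=
    (IsCyclotomicExtension.zeta_spec p ℚ K).map_of_injective (algebraMap K F).injective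
  have hζℓ : IsPrimitiveRoot (IsCyclotomicExtension.zeta ℓ K F) ℓ :=
    IsCyclotomicExtension.zeta_spec ℓ K F
  have hcop : ℓ.Coprime p := (Nat.coprime_primes hℓ hp).mpr hℓp
  have hprod := isPrimitiveRoot_mul_of_coprime hζℓ hζp hcop
  haveI h2 : IsCyclotomicExtension (({p} ∪ {ℓ}) ∪ {ℓ * p}) ℚ F :=
    IsCyclotomicExtension.union_of_isPrimitiveRoot _ ℚ F hprod
  have e1 : (({p} ∪ {ℓ}) ∪ {ℓ * p} : Set ℕ) = (({ℓ * p} ∪ {p}) ∪ {ℓ} : Set ℕ) := by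
    ext x
    simp only [Set.mem_union, Set.mem_singleton_iff]
    tauto
  rw [e1] at h2
  have h3 : IsCyclotomicExtension ({ℓ * p} ∪ {p}) ℚ F :=
    (IsCyclotomicExtension.iff_union_of_dvd (n := ℓ) (S := {ℓ * p} ∪ {p}) ℚ F
      ⟨ℓ * p, by simp, mul_ne_zero hℓ.ne_zero hp.ne_zero, dvd_mul_right ℓ p⟩).mpr h2
  exact (IsCyclotomicExtension.iff_union_of_dvd (n := p) (S := {ℓ * p}) ℚ F
      ⟨ℓ * p, by simp, mul_ne_zero hℓ.ne_zero hp.ne_zero, dvd_mul_left p ℓ⟩).mpr h3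

variable {F} in
omit [NumberField F] in
theorem thaine_liesOver_int (Q : Ideal (𝓞 F)) [Q.IsPrime] (hℓQ : ((ℓ : ℕ) : 𝓞 F) ∈ Q) :
    Q.LiesOver (span {(ℓ : ℤ)}) := by
  have hℓ : ℓ.Prime := Fact.out
  rw [liesOver_iff]
  refine IsMaximal.eq_of_le (Int.ideal_span_isMaximal_of_prime ℓ) IsPrime.ne_top' ?_
  rw [span_singleton_le_iff_mem, under_def, mem_comap, algebraMap_int_eq, map_natCast]
  exact hℓQ

/-- ramification indices at a prime `Q` of `F` over `ℓ`. -/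
theorem thaine_ramificationIdx (hℓp : ℓ ≠ p) (Q : Ideal (𝓞 F)) [Q.IsPrime]
    (hℓQ : ((ℓ : ℕ) : 𝓞 F) ∈ Q) :
    Q.ramificationIdx ℤ = ℓ - 1 ∧ (Q.under (𝓞 K)).ramificationIdx ℤ = 1 ∧
      Q.ramificationIdx (𝓞 K) = ℓ - 1 := by
  have hp : p.Prime := Fact.out
  have hℓ : ℓ.Prime := Fact.out
  haveI : NeZero p := ⟨hp.ne_zero⟩
  haveI := thaine_isCyclotomicExtension_mul p ℓ K F hℓp
  haveI := thaine_liesOver_int ℓ Q hℓQ
  have hndvd : ¬ ℓ ∣ p := fun h => hℓp ((Nat.prime_dvd_prime_iff_eq hℓ hp).mp h)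
  have h1 : Q.ramificationIdx ℤ = ℓ ^ 0 * (ℓ - 1) :=
    IsCyclotomicExtension.Rat.ramificationIdx_eq (ℓ * p) F Q (by rw [zero_add, pow_one]) hndvd
  rw [pow_zero, one_mul] at h1
  haveI hq : (Q.under (𝓞 K)).LiesOver (span {(ℓ : ℤ)}) := by
    rw [liesOver_iff, under_under]
    exact (liesOver_iff _ _).mp inferInstance
  have h2 : (Q.under (𝓞 K)).ramificationIdx ℤ = 1 :=
    IsCyclotomicExtension.Rat.ramificationIdx_eq_of_not_dvd ℓ K (Q.under (𝓞 K)) hndvd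
  have h3 := ramificationIdx_tower (R := ℤ) (Q.under (𝓞 K)) Q
  rw [h1, h2, one_mul] at h3
  exact ⟨h1, h2, h3.symm⟩

variable {F} in
omit [NumberField F] in
/-- `(ζ_ℓ - 1)^(ℓ-1)` is associated to `ℓ` in `𝓞 F`. -/
theorem thaine_associated (ζℓ : 𝓞 F) (hζ : IsPrimitiveRoot ζℓ ℓ) :
    Associated ((ζℓ - 1) ^ (ℓ - 1)) ((ℓ : ℕ) : 𝓞 F) := by
  have hℓ : ℓ.Prime := Fact.out
  haveI : NeZero ℓ := ⟨hℓ.ne_zero⟩
  have hζ' : IsPrimitiveRoot (ζℓ : F) ℓ :=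
    hζ.map_of_injective NumberField.RingOfIntegers.coe_injective
  have h := IsCyclotomicExtension.Rat.associated_zeta_sub_one_pow_prime ℓ hζ'
  have e : hζ'.toInteger = ζℓ := NumberField.RingOfIntegers.ext rfl
  rwa [e] at h

variable {F} in
omit [NumberField F] in
theorem thaine_zeta_sub_one_mem (ζℓ : 𝓞 F) (hζ : IsPrimitiveRoot ζℓ ℓ) (Q : Ideal (𝓞 F))
    [Q.IsPrime] (hℓQ : ((ℓ : ℕ) : 𝓞 F) ∈ Q) : ζℓ - 1 ∈ Q := by
  obtain ⟨u, hu⟩ := (thaine_associated ℓ ζℓ hζ).symm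
  have h1 : (ζℓ - 1) ^ (ℓ - 1) ∈ Q := by
    rw [← hu]
    exact Q.mul_mem_right _ hℓQ
  exact IsPrime.mem_of_pow_mem inferInstance _ h1

include K in
theorem thaine_zeta_sub_one_not_mem_sq (hℓp : ℓ ≠ p) (ζℓ : 𝓞 F) (hζ : IsPrimitiveRoot ζℓ ℓ)
    (Q : Ideal (𝓞 F)) [Q.IsPrime] (hℓQ : ((ℓ : ℕ) : 𝓞 F) ∈ Q) : ζℓ - 1 ∉ Q ^ 2 := by
  have hℓ : ℓ.Prime := Fact.out
  intro hmem
  haveI := thaine_liesOver_int ℓ Q hℓQ
  have hℓ0 : ((ℓ : ℕ) : 𝓞 F) ≠ 0 := by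
    exact_mod_cast hℓ.ne_zero
  have hmap : map (algebraMap ℤ (𝓞 F)) (span {(ℓ : ℤ)}) = span {((ℓ : ℕ) : 𝓞 F)} := by
    rw [map_span, Set.image_singleton]
    simp
  have hne : map (algebraMap ℤ (𝓞 F)) (span {(ℓ : ℤ)}) ≠ ⊥ := by
    rw [hmap]
    exact fun h => hℓ0 (span_singleton_eq_bot.mp h)
  have h1 := IsDedekindDomain.ramificationIdx_eq_multiplicity (span {(ℓ : ℤ)}) Q hne
  have hram : Q.ramificationIdx ℤ = ℓ - 1 := (thaine_ramificationIdx p ℓ K F hℓp Q hℓQ).1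
  rw [hram, hmap] at h1
  -- `ℓ ∈ Q ^ (2 * (ℓ - 1))`
  obtain ⟨u, hu⟩ := thaine_associated ℓ ζℓ hζ
  have h2 : ((ℓ : ℕ) : 𝓞 F) ∈ Q ^ (2 * (ℓ - 1)) := by
    rw [← hu, pow_mul]
    exact Ideal.mul_mem_right _ _ (Ideal.pow_mem_pow hmem _)
  have h3 : Q ^ (2 * (ℓ - 1)) ∣ span {((ℓ : ℕ) : 𝓞 F)} := by
    rw [Ideal.dvd_iff_le, span_singleton_le_iff_mem]
    exact h2
  have hfin : FiniteMultiplicity Q (span {((ℓ : ℕ) : 𝓞 F)}) := by
    apply FiniteMultiplicity.of_not_isUnit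
    · rw [Ideal.isUnit_iff]
      exact IsPrime.ne_top inferInstance
    · exact fun h => hℓ0 (span_singleton_eq_bot.mp h)
  have h4 := hfin.le_multiplicity_of_pow_dvd h3
  rw [← h1] at h4
  have : 2 ≤ ℓ := hℓ.two_le
  omega

theorem thaine_smul_eq_galRestrict (σ : F ≃ₐ[K] F) (x : 𝓞 F) :
    σ • x = galRestrict (𝓞 K) K F (𝓞 F) σ x := by
  apply NumberField.RingOfIntegers.ext
  rw [NumberField.RingOfIntegers.coe_eq_algebraMap, NumberField.RingOfIntegers.coe_eq_algebraMap,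
    algebraMap_galRestrict_apply]
  rfl

theorem thaine_finrank (hℓp : ℓ ≠ p) : Module.finrank K F = ℓ - 1 := by
  have hp : p.Prime := Fact.out
  have hℓ : ℓ.Prime := Fact.out
  haveI : NeZero p := ⟨hp.ne_zero⟩
  haveI : NeZero (ℓ * p) := ⟨mul_ne_zero hℓ.ne_zero hp.ne_zero⟩
  haveI := thaine_isCyclotomicExtension_mul p ℓ K F hℓp
  have h1 := IsCyclotomicExtension.Rat.finrank (ℓ * p) F
  have h2 := IsCyclotomicExtension.Rat.finrank p K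
  have h3 := Module.finrank_mul_finrank ℚ K F
  have hcop : ℓ.Coprime p := (Nat.coprime_primes hℓ hp).mpr hℓp
  rw [h1, h2, Nat.totient_mul hcop, Nat.totient_prime hp, Nat.totient_prime hℓ, mul_comm] at h3
  exact Nat.eq_of_mul_eq_mul_right (by have := hp.two_le; omega) h3

theorem thaine_galois_trivial (hℓp : ℓ ≠ p) (Q : Ideal (𝓞 F)) [Q.IsPrime]
    (hℓQ : ((ℓ : ℕ) : 𝓞 F) ∈ Q) (σ : F ≃ₐ[K] F) (x : 𝓞 F) :
    galRestrict (𝓞 K) K F (𝓞 F) σ x - x ∈ Q := by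
  have hℓ : ℓ.Prime := Fact.out
  haveI : IsGalois K F := IsCyclotomicExtension.isGalois {ℓ} K F
  haveI : FiniteDimensional K F := IsCyclotomicExtension.finiteDimensional {ℓ} K F
  have hcard := card_inertia_eq_ramificationIdxIn (G := F ≃ₐ[K] F) (Q.under (𝓞 K)) Q
  rw [ramificationIdxIn_eq_ramificationIdx (Q.under (𝓞 K)) Q (F ≃ₐ[K] F),
    (thaine_ramificationIdx p ℓ K F hℓp Q hℓQ).2.2, ← thaine_finrank p ℓ K F hℓp,
    ← IsGalois.card_aut_eq_finrank K F] at hcard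
  have htop : inertia (F ≃ₐ[K] F) Q = ⊤ := Subgroup.eq_top_of_card_eq _ hcard
  have hσ : σ ∈ inertia (F ≃ₐ[K] F) Q := htop ▸ Subgroup.mem_top σ
  have := hσ x
  rwa [thaine_smul_eq_galRestrict] at this

/-- **C3-b2**: `F/K` is totally ramified at the primes over `ℓ`, with uniformiser `ζ_ℓ - 1`, and
`Gal(F/K)` acts trivially on the residue field. -/
theorem totallyRamifiedStatement : Fermat.Agent.H76.TotallyRamifiedStatement := by
  intro p ℓ _ _ _ K _ _ _ F _ _ _ _ hℓp _ ζℓ hζ Q hQ hℓQ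
  haveI := hQ
  exact ⟨(thaine_ramificationIdx p ℓ K F hℓp Q hℓQ).2.2,
    thaine_zeta_sub_one_mem ℓ ζℓ hζ Q hℓQ,
    thaine_zeta_sub_one_not_mem_sq p ℓ K F hℓp ζℓ hζ Q hℓQ,
    fun σ x => thaine_galois_trivial p ℓ K F hℓp Q hℓQ σ x⟩

end Fermat.Agent.H88
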