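import Mathlib.RingTheory.LaurentSeries
import Mathlib.RingTheory.Polynomial.Basic
import Mathlib.RingTheory.RootsOfUnity.PrimitiveRoots
import Fermat.Prelude.Def_ModularCurve_X0
import Fermat.Prelude.Def_ModularCurve_X0ModL
import Fermat.Prelude.Def_ModularCurve_JqCoeff
import Fermat.Prelude.Def_ModularCurve_LaurentCoeff
import Fermat.Prelude.Thm_ModularCurve_coeffMap_qExpand
import Fermat.Prelude.Thm_ModularCurve_coeff_jqModC_neg_one
import Fermat.Agent.H27.Igusa.Defs

/-!
# IG-D1, part 0: formal lemmas on `ev2`, `twist`, `subst`, `qExpand`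

* `ev2 P x y`      : evaluation of `P ∈ ℤ[X][Y]` at `(x, y)` in any commutative ring
* `jj k ξ e`       : the series `j(ξ t^e)` (and `0` if `e = 0`)
* `jd k d`         : the series `j(t^d)` (and `j(t)` if `d = 0`)
-/

set_option autoImplicit false

noncomputable section

open ModularCurve Fermat.Agent.H27 Polynomial HahnSeries

namespace Fermat.Agent.H88

section Ev2

variable {A B : Type*} [CommRing A] [CommRing B]

/-- evaluation of `P ∈ ℤ[X][Y]` at `(x, y)`. -/
def ev2 (P : Polynomial (Polynomial ℤ)) (x y : A) : A :=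
  (P.map (Polynomial.eval₂RingHom (Int.castRingHom A) x)).eval y

theorem map_ev2 (φ : A →+* B) (P : Polynomial (Polynomial ℤ)) (x y : A) :
    φ (ev2 P x y) = ev2 P (φ x) (φ y) := by
  unfold ev2
  rw [← Polynomial.eval_map_apply φ y, Polynomial.map_map]
  congr 2
  apply Polynomial.ringHom_ext
  · intro a; simp
  · simp

theorem ev2_eq_evalAt {k : Type*} [CommRing k] (P : Polynomial (Polynomial ℤ))
    (x y : LaurentSeries k) : ev2 P x y = (P.map (evalAt x)).eval y := rfl

/-- `Φ(x, Y)` as a polynomial over `A`. -/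
def ev1 (P : Polynomial (Polynomial ℤ)) (x : A) : Polynomial A :=
  P.map (Polynomial.eval₂RingHom (Int.castRingHom A) x)

theorem ev1_eval (P : Polynomial (Polynomial ℤ)) (x y : A) : (ev1 P x).eval y = ev2 P x y := rfl

theorem map_ev1 (φ : A →+* B) (P : Polynomial (Polynomial ℤ)) (x : A) :
    (ev1 P x).map φ = ev1 P (φ x) := by
  unfold ev1
  rw [Polynomial.map_map]
  congr 1
  apply Polynomial.ringHom_ext
  · intro a; simp
  · simp

theorem ev1_monic (P : Polynomial (Polynomial ℤ)) (hP : P.Monic) (x : A) : (ev1 P x).Monic :=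
  hP.map _

theorem ev1_natDegree [Nontrivial A] (P : Polynomial (Polynomial ℤ)) (hP : P.Monic) (x : A) :
    (ev1 P x).natDegree = P.natDegree :=
  hP.natDegree_map _

end Ev2

section Twist

variable {k : Type*} [CommRing k]

theorem twist_one (f : LaurentSeries k) : twist (1 : kˣ) f = f := by
  ext n
  simp

theorem twist_twist (ζ ζ' : kˣ) (f : LaurentSeries k) :
    twist ζ (twist ζ' f) = twist (ζ * ζ') f := by
  ext n
  rw [twist_coeff, twist_coeff, twist_coeff, mul_zpow, Units.val_mul, mul_assoc]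

theorem twist_qExpand (ζ : kˣ) (p : ℕ) [NeZero p] (f : LaurentSeries k) :
    twist ζ (qExpand k p f) = qExpand k p (twist (ζ ^ p) f) := by
  ext n
  by_cases hn : (p : ℤ) ∣ n
  · obtain ⟨m, rfl⟩ := hn
    rw [twist_coeff, qExpand_coeff_mul, qExpand_coeff_mul, twist_coeff]
    congr 2
    rw [zpow_mul, zpow_natCast]
  · rw [twist_coeff, qExpand_coeff_of_not_dvd p _ hn, qExpand_coeff_of_not_dvd p _ hn, mul_zero]

theorem subst_qExpand (ξ : kˣ) (e p : ℕ) [NeZero e] [NeZero p] [NeZero (e * p)]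
    (f : LaurentSeries k) :
    subst ξ e (qExpand k p f) = subst (ξ ^ p) (e * p) f := by
  rw [subst_apply, subst_apply, twist_qExpand, qExpand_qExpand]

theorem subst_twist (ξ ζ : kˣ) (e : ℕ) [NeZero e] (f : LaurentSeries k) :
    subst ξ e (twist ζ f) = subst (ξ * ζ) e f := by
  rw [subst_apply, subst_apply, twist_twist]

theorem subst_one_left (e : ℕ) [NeZero e] (f : LaurentSeries k) :
    subst (1 : kˣ) e f = qExpand k e f := by
  rw [subst_apply, twist_one]

end Twist

section JJ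

variable (k : Type*) [CommRing k]

/-- the series `j(ξ t^e)`; junk value `0` for `e = 0`. -/
def jj (ξ : kˣ) (e : ℕ) : LaurentSeries k :=
  if h : e = 0 then 0 else (haveI : NeZero e := ⟨h⟩; subst ξ e (jqModC k))

/-- the series `j(t^d)`; junk value `j(t)` for `d = 0`. -/
def jd (d : ℕ) : LaurentSeries k :=
  if h : d = 0 then jqModC k else (haveI : NeZero d := ⟨h⟩; qExpand k d (jqModC k))

variable {k}

theorem jj_eq (ξ : kˣ) (e : ℕ) [NeZero e] : jj k ξ e = subst ξ e (jqModC k) := by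
  unfold jj
  rw [dif_neg (NeZero.ne e)]

variable (k) in
theorem jd_eq (d : ℕ) [NeZero d] : jd k d = qExpand k d (jqModC k) := by
  unfold jd
  rw [dif_neg (NeZero.ne d)]

variable (k) in
theorem jd_one : jd k 1 = jqModC k := by
  rw [jd_eq, qExpand_one_apply]

variable (k) in
theorem jj_one_left (e : ℕ) (he : e ≠ 0) : jj k 1 e = jd k e := by
  haveI : NeZero e := ⟨he⟩
  rw [jj_eq, jd_eq, subst_one_left]

theorem qExpand_jd (n d : ℕ) [NeZero n] (hd : d ≠ 0) :
    qExpand k n (jd k d) = jd k (n * d) := by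
  haveI : NeZero d := ⟨hd⟩
  haveI : NeZero (n * d) := ⟨mul_ne_zero (NeZero.ne n) hd⟩
  rw [jd_eq, jd_eq, qExpand_qExpand]

theorem coeffMap_jd {k' : Type*} [CommRing k'] (f : k →+* k') (d : ℕ) :
    coeffMap f (jd k d) = jd k' d := by
  by_cases hd : d = 0
  · subst hd
    simp only [jd, dif_pos]
    exact coeffMap_jqModC f
  · haveI : NeZero d := ⟨hd⟩
    rw [jd_eq, jd_eq, coeffMap_qExpand, coeffMap_jqModC]

theorem jd_rat (d : ℕ) [NeZero d] : jd ℚ d = qExpand ℚ d jq := jd_eq ℚ d

/-- coefficient of `j(ξ t^e)` at `-e` -/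
theorem jj_coeff_neg (ξ : kˣ) (e : ℕ) (he : e ≠ 0) :
    (jj k ξ e).coeff (-(e : ℤ)) = ((ξ⁻¹ : kˣ) : k) := by
  haveI : NeZero e := ⟨he⟩
  rw [jj_eq, subst_apply, show (-(e : ℤ)) = (e : ℤ) * (-1) by ring, qExpand_coeff_mul,
    twist_coeff, coeff_jqModC_neg_one, mul_one, zpow_neg_one]

/-- `j(ξ t^e)` has no terms below `-e` -/
theorem jj_coeff_of_lt (ξ : kˣ) (e : ℕ) {m : ℤ} (hm : m < -(e : ℤ)) :
    (jj k ξ e).coeff m = 0 := by
  by_cases he : e = 0
  · simp [jj, he]
  haveI : NeZero e := ⟨he⟩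
  rw [jj_eq, subst_apply]
  by_cases hdvd : (e : ℤ) ∣ m
  · obtain ⟨c, rfl⟩ := hdvd
    rw [qExpand_coeff_mul, twist_coeff]
    have hc : c < -1 := by
      by_contra hcon
      push_neg at hcon
      have he' : (0 : ℤ) < e := by exact_mod_cast Nat.pos_of_ne_zero he
      nlinarith
    rw [coeff_jqModC_of_lt k hc, mul_zero]
  · exact qExpand_coeff_of_not_dvd e _ hdvd

theorem jj_exp_eq [Nontrivial k] {ξ ξ' : kˣ} {e e' : ℕ} (he : e ≠ 0) (he' : e' ≠ 0)
    (h : jj k ξ e = jj k ξ' e') : e = e' := by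
  rcases lt_trichotomy e e' with hlt | heq | hgt
  · exfalso
    have h1 := jj_coeff_neg ξ' e' he'
    rw [← h, jj_coeff_of_lt ξ e (by exact_mod_cast (neg_lt_neg (Int.ofNat_lt.mpr hlt)))] at h1
    exact (Units.ne_zero _) h1.symm
  · exact heq
  · exfalso
    have h1 := jj_coeff_neg ξ e he
    rw [h, jj_coeff_of_lt ξ' e' (by exact_mod_cast (neg_lt_neg (Int.ofNat_lt.mpr hgt)))] at h1
    exact (Units.ne_zero _) h1.symm

theorem jd_ne_of_ne [Nontrivial k] {d d' : ℕ} (hd : d ≠ 0) (hd' : d' ≠ 0) (h : d ≠ d') :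
    jd k d ≠ jd k d' := by
  intro heq
  rw [← jj_one_left k d hd, ← jj_one_left k d' hd'] at heq
  exact h (jj_exp_eq hd hd' heq)

end JJ

section CoeffMapInj

variable {R S : Type*} [CommRing R] [CommRing S]

theorem coeffMap_injective (f : R →+* S) (hf : Function.Injective f) :
    Function.Injective (coeffMap f) := by
  intro x y h
  ext n
  apply hf
  have := congrArg (fun z => z.coeff n) h
  simpa using this

end CoeffMapInj

end Fermat.Agent.H88
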