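import Mathlib

set_option autoImplicit false
set_option maxSynthPendingDepth 3

/-!
# Quadratic relations force a two-dimensional representation

Let `ρ : G →* End_k(V)` be a nonzero finite-dimensional representation over an algebraically
closed field, `χ : G →* kˣ` a character and `t : G → k` a function such that every `g`
satisfies `ρ(g)² - t(g) ρ(g) + χ(g) = 0`.  Then there is a two-dimensional representation `ρ'`
with `charpoly (ρ' g) = X² - t(g) X + χ(g)` for all `g`, trivial on every `g` with `ρ g = 1` and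
`χ g = 1`.  (Abstract core of the construction of the residual representation attached to an
eigenform from a Hecke eigen-piece of the torsion of the Jacobian: multiplicities do not matter.)
-/

open Polynomial

namespace Fermat.Agent.H88

section QuadRep

variable {G : Type*} [Group G] {k : Type*} [Field k]
variable {V : Type*} [AddCommGroup V] [Module k V]

/-- The quadratic relation `ρ(g)² - t(g) ρ(g) + χ(g) = 0`. -/
def QuadRel (ρ : G →* Module.End k V) (t : G → k) (χ : G →* kˣ) : Prop :=
  ∀ g, ρ g * ρ g - t g • ρ g + ((χ g : kˣ) : k) • (1 : Module.End k V) = 0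

/-- `G`-stability of a subspace. -/
def IsStableSub (ρ : G →* Module.End k V) (W : Submodule k V) : Prop :=
  ∀ g, ∀ w ∈ W, ρ g w ∈ W

/-- The representation restricted to a stable subspace. -/
def restrictRep (ρ : G →* Module.End k V) (W : Submodule k V) (hW : IsStableSub ρ W) :
    G →* Module.End k W where
  toFun g := (ρ g).restrict (hW g)
  map_one' := by
    ext w
    simp
  map_mul' g h := by
    ext w
    simp

@[simp] lemma restrictRep_apply_coe (ρ : G →* Module.End k V) (W : Submodule k V)
    (hW : IsStableSub ρ W) (g : G) (w : W) :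
    ((restrictRep ρ W hW g w : W) : V) = ρ g (w : V) := rfl

lemma QuadRel.apply {ρ : G →* Module.End k V} {t : G → k} {χ : G →* kˣ}
    (h : QuadRel ρ t χ) (g : G) (v : V) :
    ρ g (ρ g v) - t g • ρ g v + ((χ g : kˣ) : k) • v = 0 := by
  have := congrArg (fun f : Module.End k V => f v) (h g)
  simpa using this

lemma QuadRel.restrict {ρ : G →* Module.End k V} {t : G → k} {χ : G →* kˣ}
    (h : QuadRel ρ t χ) (W : Submodule k V) (hW : IsStableSub ρ W) :
    QuadRel (restrictRep ρ W hW) t χ := by
  intro g
  ext w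
  have := h.apply g (w : V)
  simpa using this

lemma rep_inv_apply (ρ : G →* Module.End k V) (g : G) (v : V) : ρ g⁻¹ (ρ g v) = v := by
  have : ρ g⁻¹ * ρ g = 1 := by rw [← map_mul, inv_mul_cancel, map_one]
  simpa using congrArg (fun f : Module.End k V => f v) this

lemma rep_apply_inv (ρ : G →* Module.End k V) (g : G) (v : V) : ρ g (ρ g⁻¹ v) = v := by
  have : ρ g * ρ g⁻¹ = 1 := by rw [← map_mul, mul_inv_cancel, map_one]
  simpa using congrArg (fun f : Module.End k V => f v) this

/-- `χ(g) ρ(g)⁻¹ = t(g) - ρ(g)`. -/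
lemma QuadRel.star {ρ : G →* Module.End k V} {t : G → k} {χ : G →* kˣ}
    (h : QuadRel ρ t χ) (g : G) (v : V) :
    ((χ g : kˣ) : k) • ρ g⁻¹ v = t g • v - ρ g v := by
  have h1 := h.apply g (ρ g⁻¹ v)
  rw [rep_apply_inv] at h1
  linear_combination (norm := module) h1

/-- The key identity `ρ(x)ρ(g) + ρ(g)ρ(x) = t(gx) - t(g)t(x) + t(x)ρ(g) + t(g)ρ(x)`. -/
lemma QuadRel.anticomm {ρ : G →* Module.End k V} {t : G → k} {χ : G →* kˣ}
    (h : QuadRel ρ t χ) (g x : G) (v : V) :
    ρ x (ρ g v) + ρ g (ρ x v) =
      (t (g * x) - t g * t x) • v + t x • ρ g v + t g • ρ x v := by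
  have h1 := h.star (g * x) v
  have h2 := h.star g v
  have h3 := h.star x v
  have h4 := h.star x (ρ g v)
  have e1 : ρ (g * x)⁻¹ v = ρ x⁻¹ (ρ g⁻¹ v) := by
    rw [mul_inv_rev, map_mul]; rfl
  have e2 : ρ (g * x) v = ρ g (ρ x v) := by
    rw [map_mul]; rfl
  rw [e1, e2, map_mul, Units.val_mul] at h1
  -- χ g χ x • ρ x⁻¹ (ρ g⁻¹ v) = ρ x⁻¹-part
  have h5 : (((χ g : kˣ) : k) * ((χ x : kˣ) : k)) • ρ x⁻¹ (ρ g⁻¹ v) =
      t g • (t x • v - ρ x v) - (t x • ρ g v - ρ x (ρ g v)) := by
    rw [← h3, ← h4, mul_comm, mul_smul, ← map_smul (ρ x⁻¹), h2, map_sub, smul_sub, map_smul,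
      smul_comm (t g)]
  rw [h5] at h1
  linear_combination (norm := module) h1

/-- Irreducibility: the only stable subspaces are `⊥` and `⊤`. -/
def IsIrredRep (ρ : G →* Module.End k V) : Prop :=
  ∀ W : Submodule k V, IsStableSub ρ W → W = ⊥ ∨ W = ⊤

lemma IsIrredRep.span_orbit_eq_top {ρ : G →* Module.End k V} (hirr : IsIrredRep ρ) {v : V}
    (hv : v ≠ 0) : Submodule.span k (Set.range fun x : G => ρ x v) = ⊤ := by
  have hst : IsStableSub ρ (Submodule.span k (Set.range fun x : G => ρ x v)) := by
    intro g w hw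
    induction hw using Submodule.span_induction with
    | mem w hw =>
      obtain ⟨x, rfl⟩ := hw
      exact Submodule.subset_span ⟨g * x, by simp [map_mul]⟩
    | zero => simp
    | add a b _ _ ha hb => rw [map_add]; exact add_mem ha hb
    | smul c a _ ha => rw [map_smul]; exact Submodule.smul_mem _ _ ha
  rcases hirr _ hst with h | h
  · exfalso
    have hmem : v ∈ Submodule.span k (Set.range fun x : G => ρ x v) :=
      Submodule.subset_span ⟨1, by simp⟩
    rw [h] at hmem
    exact hv (by simpa using hmem)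
  · exact h

/-- If `v` is an `α`-eigenvector of `ρ g₀` in an irreducible representation with quadratic
relations, then `ρ g₀ - (t g₀ - α)` maps everything into the line `k v`. -/
lemma QuadRel.sub_mem_span_of_eigen {ρ : G →* Module.End k V} {t : G → k} {χ : G →* kˣ}
    (h : QuadRel ρ t χ) (hirr : IsIrredRep ρ) (g0 : G) {v : V} (hv : v ≠ 0) {α : k}
    (hα : ρ g0 v = α • v) (w : V) :
    ρ g0 w - (t g0 - α) • w ∈ Submodule.span k {v} := by
  have hmem : w ∈ (⊤ : Submodule k V) := trivial
  rw [← hirr.span_orbit_eq_top hv] at hmem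
  induction hmem using Submodule.span_induction with
  | mem w hw =>
    obtain ⟨x, rfl⟩ := hw
    have h1 := h.anticomm g0 x v
    rw [hα, map_smul] at h1
    have e : ρ g0 (ρ x v) - (t g0 - α) • ρ x v =
        (t (g0 * x) - t g0 * t x + t x * α) • v := by
      linear_combination (norm := module) h1
    simp only at e ⊢
    rw [e]
    exact Submodule.smul_mem _ _ (Submodule.mem_span_singleton_self v)
  | zero => simp
  | add a b _ _ ha hb =>
    have e : ρ g0 (a + b) - (t g0 - α) • (a + b) =
        (ρ g0 a - (t g0 - α) • a) + (ρ g0 b - (t g0 - α) • b) := by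
      rw [map_add]; module
    rw [e]
    exact add_mem ha hb
  | smul c a _ ha =>
    have e : ρ g0 (c • a) - (t g0 - α) • (c • a) = c • (ρ g0 a - (t g0 - α) • a) := by
      rw [map_smul]; module
    rw [e]
    exact Submodule.smul_mem _ _ ha

lemma IsIrredRep.exists_nonscalar [FiniteDimensional k V] {ρ : G →* Module.End k V}
    (hirr : IsIrredRep ρ) (hdim : 2 ≤ Module.finrank k V) :
    ∃ g0 : G, ∀ c : k, ρ g0 ≠ c • (1 : Module.End k V) := by
  by_contra hcon
  push Not at hcon
  have hpos : 0 < Module.finrank k V := by omega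
  have : Nontrivial V := Module.nontrivial_of_finrank_pos (R := k) hpos
  obtain ⟨v, hv⟩ : ∃ v : V, v ≠ 0 := exists_ne 0
  have hst : IsStableSub ρ (Submodule.span k {v}) := by
    intro g w hw
    obtain ⟨c, hc⟩ := hcon g
    rw [hc]
    simpa using Submodule.smul_mem _ c hw
  rcases hirr _ hst with h | h
  · have hmem : v ∈ Submodule.span k {v} := Submodule.mem_span_singleton_self v
    rw [h] at hmem
    exact hv (by simpa using hmem)
  · have h1 := finrank_span_singleton (K := k) hv
    rw [h, finrank_top] at h1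
    omega

/-- In an irreducible representation of dimension at least two with quadratic relations over an
algebraically closed field, the dimension is exactly two. -/
lemma QuadRel.finrank_eq_two [IsAlgClosed k] [FiniteDimensional k V]
    {ρ : G →* Module.End k V} {t : G → k} {χ : G →* kˣ}
    (h : QuadRel ρ t χ) (hirr : IsIrredRep ρ) (hdim : 2 ≤ Module.finrank k V) :
    Module.finrank k V = 2 := by
  obtain ⟨g0, hg0⟩ := hirr.exists_nonscalar hdim
  have hpos : 0 < Module.finrank k V := by omega
  have : Nontrivial V := Module.nontrivial_of_finrank_pos (R := k) hpos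
  obtain ⟨α, hαev⟩ := Module.End.exists_eigenvalue (ρ g0)
  obtain ⟨v, hvec⟩ := hαev.exists_hasEigenvector
  have hv : v ≠ 0 := hvec.2
  have hα : ρ g0 v = α • v := hvec.apply_eq_smul
  set β : k := t g0 - α with hβ
  set N : Module.End k V := ρ g0 - β • (1 : Module.End k V) with hN
  have hNapp : ∀ w, N w = ρ g0 w - β • w := fun w => by simp [hN]
  -- the range of `N` is at most a line
  have hrange : LinearMap.range N ≤ Submodule.span k {v} := by
    rintro _ ⟨w, rfl⟩
    rw [hNapp]
    exact h.sub_mem_span_of_eigen hirr g0 hv hα w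
  have hr1 : Module.finrank k (LinearMap.range N) ≤ 1 := by
    calc Module.finrank k (LinearMap.range N) ≤ Module.finrank k (Submodule.span k {v}) :=
          Submodule.finrank_mono hrange
      _ = 1 := finrank_span_singleton hv
  -- the kernel of `N` is at most a line
  have hk1 : Module.finrank k (LinearMap.ker N) ≤ 1 := by
    by_cases hker : LinearMap.ker N = ⊥
    · rw [hker, finrank_bot]; omega
    · obtain ⟨w1, hw1, hw1ne⟩ := (Submodule.ne_bot_iff _).1 hker
      have hw1β : ρ g0 w1 = β • w1 := by
        have := LinearMap.mem_ker.1 hw1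
        rw [hNapp, sub_eq_zero] at this
        exact this
      -- a nonzero vector in the image of `ρ g0 - (t g0 - β)`
      obtain ⟨u, hu⟩ : ∃ u, ρ g0 u - (t g0 - β) • u ≠ 0 := by
        by_contra hall
        push Not at hall
        apply hg0 (t g0 - β)
        ext u
        have := hall u
        rw [sub_eq_zero] at this
        simpa using this
      have hy1 := h.sub_mem_span_of_eigen hirr g0 hw1ne hw1β u
      obtain ⟨a, ha⟩ := Submodule.mem_span_singleton.1 hy1
      have hle : LinearMap.ker N ≤ Submodule.span k {w1} := by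
        intro w2 hw2
        by_cases hw2ne : w2 = 0
        · rw [hw2ne]; exact zero_mem _
        · have hw2β : ρ g0 w2 = β • w2 := by
            have := LinearMap.mem_ker.1 hw2
            rw [hNapp, sub_eq_zero] at this
            exact this
          have hy2 := h.sub_mem_span_of_eigen hirr g0 hw2ne hw2β u
          obtain ⟨b, hb⟩ := Submodule.mem_span_singleton.1 hy2
          have hbne : b ≠ 0 := by
            rintro rfl
            rw [zero_smul] at hb
            exact hu hb.symm
          rw [Submodule.mem_span_singleton]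
          refine ⟨b⁻¹ * a, ?_⟩
          rw [mul_smul, ha, ← hb, smul_smul, inv_mul_cancel₀ hbne, one_smul]
      calc Module.finrank k (LinearMap.ker N) ≤ Module.finrank k (Submodule.span k {w1}) :=
            Submodule.finrank_mono hle
        _ = 1 := finrank_span_singleton hw1ne
  have := LinearMap.finrank_range_add_finrank_ker N
  omega

/-! ### The two-dimensional matrix computation -/

/-- Cayley–Hamilton for `2 × 2` matrices. -/
lemma matrix_two_cayley (A : Matrix (Fin 2) (Fin 2) k) :
    A * A - A.trace • A + A.det • (1 : Matrix (Fin 2) (Fin 2) k) = 0 := by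
  ext i j
  fin_cases i <;> fin_cases j <;>
    simp [Matrix.mul_apply, Fin.sum_univ_two, Matrix.trace_fin_two, Matrix.det_fin_two] <;> ring

/-- A non-scalar `2 × 2` matrix satisfying `A² - tA + c = 0` has trace `t` and determinant `c`. -/
lemma matrix_two_trace_det_of_quad {A : Matrix (Fin 2) (Fin 2) k} {t c : k}
    (hA : A * A - t • A + c • (1 : Matrix (Fin 2) (Fin 2) k) = 0)
    (hns : ∀ a : k, A ≠ a • (1 : Matrix (Fin 2) (Fin 2) k)) :
    A.trace = t ∧ A.det = c := by
  have hCH := matrix_two_cayley A
  have hsub : (A.trace - t) • A = (A.det - c) • (1 : Matrix (Fin 2) (Fin 2) k) := by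
    have : (A.trace - t) • A - (A.det - c) • (1 : Matrix (Fin 2) (Fin 2) k) =
        (A * A - t • A + c • (1 : Matrix (Fin 2) (Fin 2) k)) -
          (A * A - A.trace • A + A.det • (1 : Matrix (Fin 2) (Fin 2) k)) := by
      module
    rw [hA, hCH, sub_zero, sub_eq_zero] at this
    exact this
  have htr : A.trace = t := by
    by_contra hne
    have hne' : A.trace - t ≠ 0 := sub_ne_zero.2 hne
    apply hns ((A.trace - t)⁻¹ * (A.det - c))
    rw [mul_smul, ← hsub, smul_smul, inv_mul_cancel₀ hne', one_smul]
  refine ⟨htr, ?_⟩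
  rw [htr, sub_self, zero_smul] at hsub
  have h00 := congrFun (congrFun hsub 0) 0
  simp only [Matrix.zero_apply, Matrix.smul_apply, Matrix.one_apply_eq, smul_eq_mul,
    mul_one] at h00
  exact sub_eq_zero.1 h00.symm

/-- The characteristic polynomials in a two-dimensional matrix representation with quadratic
relations containing a non-scalar element. -/
lemma matrix_two_charpoly_of_quad (M : G →* Matrix (Fin 2) (Fin 2) k) (t : G → k)
    (χ : G →* kˣ)
    (h : ∀ g, M g * M g - t g • M g + ((χ g : kˣ) : k) • (1 : Matrix (Fin 2) (Fin 2) k) = 0)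
    (g0 : G) (hg0 : ∀ a : k, M g0 ≠ a • (1 : Matrix (Fin 2) (Fin 2) k)) (g : G) :
    (M g).charpoly = X ^ 2 - C (t g) * X + C ((χ g : kˣ) : k) := by
  rw [Matrix.charpoly_fin_two]
  suffices hsuff : (M g).trace = t g ∧ (M g).det = ((χ g : kˣ) : k) by
    rw [hsuff.1, hsuff.2]
  by_cases hs : ∀ a : k, M g ≠ a • (1 : Matrix (Fin 2) (Fin 2) k)
  · exact matrix_two_trace_det_of_quad (h g) hs
  · push Not at hs
    obtain ⟨lam, hlam⟩ := hs
    have hlam0 : lam ≠ 0 := by
      rintro rfl
      have h1 : M g * M g⁻¹ = 1 := by rw [← map_mul, mul_inv_cancel, map_one]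
      rw [hlam, zero_smul, zero_mul] at h1
      exact zero_ne_one h1
    -- `g * g0` is not scalar
    have hns : ∀ a : k, M (g * g0) ≠ a • (1 : Matrix (Fin 2) (Fin 2) k) := by
      intro a ha
      apply hg0 (lam⁻¹ * a)
      rw [map_mul, hlam, smul_mul_assoc, one_mul] at ha
      rw [mul_smul, ← ha, smul_smul, inv_mul_cancel₀ hlam0, one_smul]
    have h1 := (matrix_two_trace_det_of_quad (h (g * g0)) hns).2
    have h2 := (matrix_two_trace_det_of_quad (h g0) hg0).2
    rw [map_mul, hlam, smul_mul_assoc, one_mul, Matrix.det_smul, h2, Fintype.card_fin, map_mul,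
      Units.val_mul] at h1
    have hχ0 : ((χ g0 : kˣ) : k) ≠ 0 := (χ g0).ne_zero
    have hlam2 : lam ^ 2 = ((χ g : kˣ) : k) := mul_right_cancel₀ hχ0 h1
    have hrel := h g
    rw [hlam] at hrel
    have h00 := congrFun (congrFun hrel 0) 0
    simp only [Matrix.zero_apply, Matrix.add_apply, Matrix.sub_apply, Matrix.smul_apply,
      Matrix.one_apply_eq, smul_eq_mul, mul_one, Matrix.mul_apply, Fin.sum_univ_two,
      Fin.isValue, ne_eq, zero_ne_one, not_false_eq_true, Matrix.one_apply_ne, mul_zero,
      add_zero, one_ne_zero] at h00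
    have ht : t g = 2 * lam := by
      have h3 : lam * (2 * lam - t g) = 0 := by
        rw [← hlam2] at h00
        linear_combination h00
      rcases mul_eq_zero.1 h3 with h4 | h4
      · exact absurd h4 hlam0
      · linear_combination -h4
    refine ⟨?_, ?_⟩
    · rw [hlam, Matrix.trace_smul, Matrix.trace_one, Fintype.card_fin, ht]
      simp [mul_comm]
    · rw [hlam, Matrix.det_smul, Matrix.det_one, Fintype.card_fin, mul_one, hlam2]

/-! ### Minimal stable subspaces -/

lemma exists_minimal_stable [FiniteDimensional k V] [Nontrivial V] (ρ : G →* Module.End k V) :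
    ∃ W : Submodule k V, IsStableSub ρ W ∧ W ≠ ⊥ ∧
      ∀ W' : Submodule k V, IsStableSub ρ W' → W' ≤ W → W' = ⊥ ∨ W' = W := by
  classical
  have hex : ∃ n : ℕ, ∃ W : Submodule k V, IsStableSub ρ W ∧ W ≠ ⊥ ∧ Module.finrank k W = n :=
    ⟨_, ⊤, fun _ _ _ => trivial, top_ne_bot, rfl⟩
  obtain ⟨W, hW, hWne, hWn⟩ := Nat.find_spec hex
  refine ⟨W, hW, hWne, fun W' hW' hle => ?_⟩
  by_cases hbot : W' = ⊥
  · exact Or.inl hbot
  · right
    have hmin : Nat.find hex ≤ Module.finrank k W' := Nat.find_min' hex ⟨W', hW', hbot, rfl⟩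
    rw [← hWn] at hmin
    exact Submodule.eq_of_le_of_finrank_le hle hmin

lemma isIrredRep_restrictRep (ρ : G →* Module.End k V) (W : Submodule k V)
    (hW : IsStableSub ρ W)
    (hmin : ∀ W' : Submodule k V, IsStableSub ρ W' → W' ≤ W → W' = ⊥ ∨ W' = W) :
    IsIrredRep (restrictRep ρ W hW) := by
  intro U hU
  have hst : IsStableSub ρ (U.map W.subtype) := by
    rintro g _ ⟨u, hu, rfl⟩
    exact ⟨restrictRep ρ W hW g u, hU g u hu, rfl⟩
  have hle : U.map W.subtype ≤ W := Submodule.map_subtype_le W U
  rcases hmin _ hst hle with h | h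
  · left
    apply Submodule.map_injective_of_injective W.injective_subtype
    rw [h, Submodule.map_bot]
  · right
    apply Submodule.map_injective_of_injective W.injective_subtype
    rw [h, Submodule.map_subtype_top]

/-! ### One-dimensional spaces -/

lemma end_eq_det_smul_of_finrank_one [FiniteDimensional k V] (hfin : Module.finrank k V = 1)
    (f : Module.End k V) : f = LinearMap.det f • (1 : Module.End k V) := by
  obtain ⟨v, hv, hspan⟩ := finrank_eq_one_iff'.1 hfin
  obtain ⟨c0, hc0⟩ := hspan (f v)
  have hf : f = c0 • (1 : Module.End k V) := by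
    ext w
    obtain ⟨c, rfl⟩ := hspan w
    rw [map_smul, ← hc0]
    simp [smul_comm c c0]
  have hdet : LinearMap.det f = c0 := by
    rw [hf, LinearMap.det_smul, hfin, pow_one, map_one, mul_one]
  rw [hdet]
  exact hf

/-- The diagonal two-dimensional matrix representation attached to two characters. -/
def diagRep (ψ₁ ψ₂ : G →* kˣ) : G →* Matrix (Fin 2) (Fin 2) k where
  toFun g := Matrix.diagonal ![((ψ₁ g : kˣ) : k), ((ψ₂ g : kˣ) : k)]
  map_one' := by
    ext i j
    fin_cases i <;> fin_cases j <;> simp
  map_mul' g h := by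
    ext i j
    fin_cases i <;> fin_cases j <;> simp [Matrix.mul_apply, Fin.sum_univ_two]

lemma diagRep_charpoly (ψ₁ ψ₂ : G →* kˣ) (g : G) :
    (diagRep ψ₁ ψ₂ g).charpoly =
      X ^ 2 - C (((ψ₁ g : kˣ) : k) + ((ψ₂ g : kˣ) : k)) * X +
        C (((ψ₁ g : kˣ) : k) * ((ψ₂ g : kˣ) : k)) := by
  rw [Matrix.charpoly_fin_two]
  simp [diagRep]

/-- The representation on `Fin 2 → k` attached to a matrix representation. -/
def matRepToEnd (M : G →* Matrix (Fin 2) (Fin 2) k) : G →* Module.End k (Fin 2 → k) where
  toFun g := Matrix.toLin' (M g)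
  map_one' := by rw [map_one, Matrix.toLin'_one]; rfl
  map_mul' g h := by rw [map_mul, Matrix.toLin'_mul]; rfl

lemma matRepToEnd_charpoly (M : G →* Matrix (Fin 2) (Fin 2) k) (g : G) :
    (matRepToEnd M g).charpoly = (M g).charpoly :=
  Matrix.charpoly_toLin' (M g)

lemma matRepToEnd_eq_one (M : G →* Matrix (Fin 2) (Fin 2) k) (g : G) (h : M g = 1) :
    matRepToEnd M g = 1 := by
  show Matrix.toLin' (M g) = 1
  rw [h, Matrix.toLin'_one]; rfl

/-! ### The main theorem -/

/-- **Quadratic relations force a two-dimensional representation** (algebraically closed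
coefficients, any characteristic). -/
theorem exists_twoDim_of_quadratic [IsAlgClosed k] [FiniteDimensional k V] [Nontrivial V]
    (ρ : G →* Module.End k V) (t : G → k) (χ : G →* kˣ)
    (h : ∀ g, ρ g * ρ g - t g • ρ g + ((χ g : kˣ) : k) • (1 : Module.End k V) = 0) :
    ∃ ρ' : G →* Module.End k (Fin 2 → k),
      (∀ g, (ρ' g).charpoly = X ^ 2 - C (t g) * X + C ((χ g : kˣ) : k)) ∧
      (∀ g, ρ g = 1 → χ g = 1 → ρ' g = 1) := by
  classical
  have hq : QuadRel ρ t χ := h
  obtain ⟨W, hW, hWne, hmin⟩ := exists_minimal_stable ρ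
  have hirr := isIrredRep_restrictRep ρ W hW hmin
  have hqW := hq.restrict W hW
  have hpos : 0 < Module.finrank k W := by
    rw [Module.finrank_pos_iff]
    exact Submodule.nontrivial_iff_ne_bot.2 hWne
  have hρW1 : ∀ g, ρ g = 1 → restrictRep ρ W hW g = 1 := by
    intro g hg
    ext w
    simp [hg]
  by_cases hone : Module.finrank k W = 1
  · -- a character `ψ` and its partner `χ ψ⁻¹`
    let ψ : G →* kˣ := (LinearMap.det.comp (restrictRep ρ W hW)).toHomUnits
    have hψ : ∀ g, restrictRep ρ W hW g = ((ψ g : kˣ) : k) • (1 : Module.End k W) := fun g =>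
      end_eq_det_smul_of_finrank_one hone (restrictRep ρ W hW g)
    have hrel : ∀ g, ((ψ g : kˣ) : k) * ((ψ g : kˣ) : k) - t g * ((ψ g : kˣ) : k) +
        ((χ g : kˣ) : k) = 0 := by
      intro g
      have h1 := hqW g
      rw [hψ g] at h1
      have : Nontrivial W := Module.finrank_pos_iff.1 hpos
      obtain ⟨w, hw⟩ : ∃ w : W, w ≠ 0 := exists_ne 0
      have h2 := congrArg (fun f : Module.End k W => f w) h1
      simp only [LinearMap.add_apply, LinearMap.sub_apply, LinearMap.smul_apply,
        Module.End.mul_apply, Module.End.one_apply, LinearMap.zero_apply, map_smul] at h2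
      have h3 : (((ψ g : kˣ) : k) * ((ψ g : kˣ) : k) - t g * ((ψ g : kˣ) : k) +
          ((χ g : kˣ) : k)) • w = 0 := by
        rw [← h2]; module
      exact (smul_eq_zero.1 h3).resolve_right hw
    refine ⟨matRepToEnd (diagRep ψ (χ * ψ⁻¹)), fun g => ?_, fun g hg hχ => ?_⟩
    · rw [matRepToEnd_charpoly, diagRep_charpoly]
      have hψ0 : ((ψ g : kˣ) : k) ≠ 0 := (ψ g).ne_zero
      have e1 : ((ψ g : kˣ) : k) * (((χ * ψ⁻¹) g : kˣ) : k) = ((χ g : kˣ) : k) := by
        simp only [MonoidHom.mul_apply, MonoidHom.inv_apply, Units.val_mul, Units.val_inv_eq_inv_val]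
        field_simp
      have e2 : ((ψ g : kˣ) : k) + (((χ * ψ⁻¹) g : kˣ) : k) = t g := by
        have h1 := hrel g
        have h2 : ((ψ g : kˣ) : k) * (((ψ g : kˣ) : k) + (((χ * ψ⁻¹) g : kˣ) : k) - t g) = 0 := by
          rw [mul_sub, mul_add, e1]
          linear_combination h1
        rcases mul_eq_zero.1 h2 with h3 | h3
        · exact absurd h3 hψ0
        · exact sub_eq_zero.1 h3
      rw [e1, e2]
    · apply matRepToEnd_eq_one
      have hψ1 : ψ g = 1 := by
        have h1 := hψ g
        rw [hρW1 g hg] at h1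
        have : Nontrivial W := Module.finrank_pos_iff.1 hpos
        obtain ⟨w, hw⟩ : ∃ w : W, w ≠ 0 := exists_ne 0
        have h2 := congrArg (fun f : Module.End k W => f w) h1
        simp only [LinearMap.smul_apply, Module.End.one_apply] at h2
        have h3 : (((ψ g : kˣ) : k) - 1) • w = 0 := by
          rw [sub_smul, one_smul, ← h2, sub_self]
        have h4 := (smul_eq_zero.1 h3).resolve_right hw
        exact Units.ext (sub_eq_zero.1 h4)
      ext i j
      fin_cases i <;> fin_cases j <;> simp [diagRep, hψ1, hχ]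
  · have hdim : 2 ≤ Module.finrank k W := by omega
    have hfin : Module.finrank k W = 2 := hqW.finrank_eq_two hirr hdim
    obtain ⟨g0, hg0⟩ := hirr.exists_nonscalar hdim
    let b : Module.Basis (Fin 2) k W := Module.finBasisOfFinrankEq k W hfin
    let M : G →* Matrix (Fin 2) (Fin 2) k :=
      { toFun := fun g => LinearMap.toMatrixAlgEquiv b (restrictRep ρ W hW g)
        map_one' := by rw [map_one, map_one]
        map_mul' := fun g h => by rw [map_mul, map_mul] }
    have hM : ∀ g, M g = LinearMap.toMatrixAlgEquiv b (restrictRep ρ W hW g) := fun _ => rfl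
    have hMrel : ∀ g, M g * M g - t g • M g +
        ((χ g : kˣ) : k) • (1 : Matrix (Fin 2) (Fin 2) k) = 0 := by
      intro g
      have h1 := congrArg (LinearMap.toMatrixAlgEquiv b) (hqW g)
      rw [map_add, map_sub, map_mul, map_smul, map_smul, map_one, map_zero] at h1
      rw [hM]
      exact h1
    have hMns : ∀ a : k, M g0 ≠ a • (1 : Matrix (Fin 2) (Fin 2) k) := by
      intro a ha
      apply hg0 a
      apply (LinearMap.toMatrixAlgEquiv b).injective
      rw [← hM, ha, map_smul, map_one]
    refine ⟨matRepToEnd M, fun g => ?_, fun g hg _ => ?_⟩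
    · rw [matRepToEnd_charpoly]
      exact matrix_two_charpoly_of_quad M t χ hMrel g0 hMns g
    · apply matRepToEnd_eq_one
      rw [hM, hρW1 g hg, map_one]

end QuadRep

end Fermat.Agent.H88
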